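import Mathlib
import Fermat.Agent.LT.T2.H973.ArchSpec

/-!
# Row LT, tower T2, sub-leaf T2.10.08.02 `WhContC` (registry row 1200) -- helper264, OFF-MAIN

`whContC264 (K) : Fermat.Agent.LT.T2.H973.WhContC K` VERBATIM (Spec `LT/T2/H973/ArchSpec.lean`,
helper973@1d2e30d90, sha256 6e234a4a0ea7): the Whittaker coefficient
`W(g) = ∫_D Φ(n(x) g) conj ψ(x) dν(x)` of a bounded continuous `Φ` is continuous and bounded
(dominated convergence on the finite measure space `(D, ν)`).
-/

set_option autoImplicit false
set_option linter.style.haveILetI false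

open IsDedekindDomain NumberField MeasureTheory AutomorphicForm
open Fermat.Agent.LT.H556.A0

noncomputable section

namespace Fermat.Agent.LT.T2.H264

open Fermat.Agent.LT.T2.H941

variable (K : Type) [Field K] [NumberField K]

/-- `x ↦ n(x)` is continuous `𝔸_K → GL₂(𝔸_K)`. -/
theorem continuous_unip264 : Continuous (T3.unip K) := by
  rw [Units.continuous_iff]
  constructor
  · have h : (Units.val ∘ T3.unip K : Adl K → Matrix (Fin 2) (Fin 2) (Adl K))
        = fun x => !![1, x; 0, 1] := rfl
    rw [h]
    refine continuous_matrix (fun i j => ?_)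
    fin_cases i <;> fin_cases j <;> simp <;> fun_prop
  · have h : (fun x : Adl K => ((T3.unip K x)⁻¹ : G K).val)
        = fun x => !![1, -x; 0, 1] := rfl
    rw [h]
    refine continuous_matrix (fun i j => ?_)
    fin_cases i <;> fin_cases j <;> simp <;> fun_prop

/-- **T2.10.08.02 `WhContC`** (A2): `W` is continuous and bounded. -/
theorem whContC264 : H973.WhContC K := by
  letI : MeasurableSpace (Adl K) := borel (Adl K)
  haveI : BorelSpace (Adl K) := ⟨rfl⟩
  intro hLC ψ ν D hW Φ hΦ hbd
  obtain ⟨⟨-, -, -⟩, -, -, hsc⟩ := hLC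
  haveI : SecondCountableTopology (G K) := hsc
  obtain ⟨hstd, -, -, -, hDm, -, hfin⟩ := hW
  obtain ⟨C, hC⟩ := hbd
  haveI : IsFiniteMeasure (ν.restrict D) := ⟨by rw [Measure.restrict_apply_univ]; exact hfin⟩
  have hψc : Continuous fun x : Adl K => (starRingEnd ℂ) ((ψ x : Circle) : ℂ) :=
    Complex.continuous_conj.comp (continuous_subtype_val.comp hstd.cont)
  have hnorm : ∀ (g : G K) (x : Adl K),
      ‖Φ (T3.unip K x * g) * (starRingEnd ℂ) ((ψ x : Circle) : ℂ)‖ ≤ C := by
    intro g x
    rw [norm_mul, RCLike.norm_conj, Circle.norm_coe, mul_one]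
    exact hC _
  constructor
  · unfold wh
    refine continuous_of_dominated (bound := fun _ => C) ?_ ?_ ?_ ?_
    · intro g
      refine Continuous.aestronglyMeasurable ?_
      exact (hΦ.comp ((continuous_unip264 K).mul continuous_const)).mul hψc
    · intro g
      exact Filter.Eventually.of_forall (hnorm g)
    · exact integrable_const C
    · refine Filter.Eventually.of_forall (fun x => ?_)
      exact (hΦ.comp (continuous_const.mul continuous_id)).mul continuous_const
  · refine ⟨C * (ν D).toReal, fun g => ?_⟩
    unfold wh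
    have h := norm_integral_le_of_norm_le_const (μ := ν.restrict D)
      (f := fun x => Φ (T3.unip K x * g) * (starRingEnd ℂ) ((ψ x : Circle) : ℂ)) (C := C)
      (Filter.Eventually.of_forall (hnorm g))
    simpa [Measure.real, Measure.restrict_apply_univ] using h

end Fermat.Agent.LT.T2.H264

end
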